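import Mathlib.RingTheory.Polynomial.Content
import Mathlib.RingTheory.Localization.Integral
import Mathlib.RingTheory.Valuation.LocalSubring
import Mathlib.RingTheory.IntegralClosure.IntegrallyClosed
import Mathlib.Algebra.CharP.Algebra
import Fermat.Prelude.Def_EllipticCurve_FrobeniusTrace
import Fermat.Prelude.Def_FLTPrelim_Ramification

/-!
Valuation-ring half of the existence of Frobenius elements.

Main result `Fermat.Agent.Lib.isFrobeniusAt_of_integers`: if `A` is a valuation subring of an
algebraic extension `L` of the rationals lying over the prime `l`, and a field automorphism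
`sigma` satisfies `sigma b - b ^ l ∈ A.nonunits` for every `b` integral over the integers, then
`sigma` is a Frobenius element at `l` for `A`.
-/

set_option autoImplicit false
open Polynomial
open scoped Pointwise

namespace Fermat.Agent.Lib

variable {L : Type*} [Field L]

theorem mem_valuationSubring_of_isIntegral (A : ValuationSubring L) {b : L}
    (hb : IsIntegral ℤ b) : b ∈ A := by
  have h1 : IsIntegral A b := hb.tower_top
  obtain ⟨y, hy⟩ := (IsIntegrallyClosed.isIntegral_iff (R := A) (K := L)).mp h1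
  rw [← hy]
  exact y.2

theorem mul_mem_nonunits_of_mem (A : ValuationSubring L) {a x : L}
    (ha : a ∈ A.nonunits) (hx : x ∈ A) : a * x ∈ A.nonunits := by
  rw [ValuationSubring.mem_nonunits_iff] at ha ⊢
  rw [map_mul]
  exact mul_lt_one_of_lt_of_le ha ((A.valuation_le_one_iff x).mpr hx)

theorem one_not_mem_nonunits (A : ValuationSubring L) : (1 : L) ∉ A.nonunits := by
  rw [ValuationSubring.mem_nonunits_iff, map_one]
  exact lt_irrefl _

theorem pow_mem_nonunits_iff (A : ValuationSubring L) {b : L} {n : ℕ} (hn : n ≠ 0) :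
    b ^ n ∈ A.nonunits ↔ b ∈ A.nonunits := by
  rw [ValuationSubring.mem_nonunits_iff, ValuationSubring.mem_nonunits_iff, map_pow]
  exact pow_lt_one_iff hn

/-- Key descent: a root `x ∈ A` of a polynomial with integral coefficients, one of which is a
unit of `A`, can be written as `b / s` with `b`, `s` integral and `s` a unit of `A`. -/
theorem exists_integral_mul_aux (A : ValuationSubring L) {x : L} (hx : x ∈ A) :
    ∀ (n : ℕ) (g : (integralClosure ℤ L)[X]), g.natDegree ≤ n → aeval x g = 0 →
      (∃ i, ((g.coeff i : integralClosure ℤ L) : L) ∉ A.nonunits) →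
      ∃ s : L, IsIntegral ℤ s ∧ s ∉ A.nonunits ∧ IsIntegral ℤ (s * x) := by
  intro n
  induction n with
  | zero =>
    intro g hdeg hg ⟨i, hi⟩
    exfalso
    apply hi
    rw [Polynomial.eq_C_of_natDegree_le_zero hdeg] at hg ⊢
    rw [aeval_C] at hg
    have h0 : g.coeff 0 = 0 := by
      have : algebraMap (integralClosure ℤ L) L (g.coeff 0) = 0 := hg
      exact Subtype.ext this
    rw [h0]
    simp
  | succ n ih =>
    intro g hdeg hg ⟨i, hi⟩
    by_cases hdeg' : g.natDegree ≤ n
    · exact ih g hdeg' hg ⟨i, hi⟩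
    have hnd : g.natDegree = n + 1 := le_antisymm hdeg (Nat.lt_of_not_le hdeg')
    have hax : IsIntegral ℤ ((g.leadingCoeff : L) * x) := by
      have := isIntegral_trans (R := ℤ) _ (isIntegral_leadingCoeff_smul g x hg)
      rwa [Algebra.smul_def] at this
    by_cases ha : (g.leadingCoeff : L) ∈ A.nonunits
    · have hax' : (g.leadingCoeff : L) * x ∈ A.nonunits := mul_mem_nonunits_of_mem A ha hx
      let g' : (integralClosure ℤ L)[X] :=
        g.eraseLead + C ⟨(g.leadingCoeff : L) * x, hax⟩ * X ^ n
      have hg'deg : g'.natDegree ≤ n := by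
        refine (natDegree_add_le _ _).trans (max_le ?_ ?_)
        · have := eraseLead_natDegree_le g
          omega
        · exact natDegree_C_mul_X_pow_le _ _
      have hg' : aeval x g' = 0 := by
        have h1 : aeval x g = aeval x (g.eraseLead + C g.leadingCoeff * X ^ g.natDegree) := by
          rw [eraseLead_add_C_mul_X_pow]
        rw [hg, hnd] at h1
        simp only [g', map_add, map_mul, aeval_C, map_pow, aeval_X] at h1 ⊢
        rw [h1]
        have : algebraMap (integralClosure ℤ L) L ⟨(g.leadingCoeff : L) * x, hax⟩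
            = algebraMap (integralClosure ℤ L) L g.leadingCoeff * x := rfl
        rw [this]
        ring
      refine ih g' hg'deg hg' ?_
      have hcoeff : ∀ j, g'.coeff j = (if j = n + 1 then 0 else g.coeff j) +
          (if j = n then ⟨(g.leadingCoeff : L) * x, hax⟩ else 0) := by
        intro j
        simp only [g', coeff_add, eraseLead_coeff, hnd, coeff_C_mul_X_pow]
      have hi1 : i ≠ n + 1 := by
        rintro rfl
        apply hi
        rw [← hnd]
        exact ha
      by_cases hin : i = n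
      · refine ⟨n, ?_⟩
        rw [hcoeff n]
        simp only [show n ≠ n + 1 by omega, if_false, if_true]
        intro hmem
        apply hi
        rw [hin]
        have : ((g.coeff n : integralClosure ℤ L) : L) =
          ((g.coeff n + ⟨(g.leadingCoeff : L) * x, hax⟩ : integralClosure ℤ L) : L) -
            (g.leadingCoeff : L) * x := by
          push_cast
          ring
        rw [this]
        exact A.nonunits.sub_mem hmem hax'
      · refine ⟨i, ?_⟩
        rw [hcoeff i]
        simp only [hi1, hin, if_false, add_zero]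
        exact hi
    · exact ⟨g.leadingCoeff, g.leadingCoeff.2, ha, hax⟩

theorem intCast_not_mem_nonunits (A : ValuationSubring L) {ℓ : ℕ} (hℓ : ℓ.Prime)
    (hA : (ℓ : L) ∈ A.nonunits) {a : ℤ} (ha : ¬ (ℓ : ℤ) ∣ a) : (a : L) ∉ A.nonunits := by
  intro hmem
  have hcop : IsCoprime a (ℓ : ℤ) := by
    have := (Nat.prime_iff_prime_int.mp hℓ)
    exact ((Prime.coprime_iff_not_dvd this).mpr ha).symm
  obtain ⟨u, w, huw⟩ := hcop
  apply one_not_mem_nonunits A
  have h1 : ((u * a + w * ℓ : ℤ) : L) = 1 := by rw [huw]; simp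
  rw [← h1]
  push_cast
  refine A.nonunits.add_mem ?_ ?_
  · rw [mul_comm]
    exact mul_mem_nonunits_of_mem A hmem
      (mem_valuationSubring_of_isIntegral A isIntegral_algebraMap)
  · rw [mul_comm]
    exact mul_mem_nonunits_of_mem A hA
      (mem_valuationSubring_of_isIntegral A isIntegral_algebraMap)

theorem exists_integral_mul [CharZero L] (A : ValuationSubring L) {ℓ : ℕ} (hℓ : ℓ.Prime)
    (hA : (ℓ : L) ∈ A.nonunits) {x : L} (hx : x ∈ A) (hxalg : IsAlgebraic ℤ x) :
    ∃ s : L, IsIntegral ℤ s ∧ s ∉ A.nonunits ∧ IsIntegral ℤ (s * x) := by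
  obtain ⟨p, hp0, hpx⟩ := hxalg
  have hq : aeval x p.primPart = 0 := by
    have h1 := p.eq_C_content_mul_primPart
    rw [h1, map_mul, aeval_C] at hpx
    rcases mul_eq_zero.mp hpx with h | h
    · exfalso
      have : p.content ≠ 0 := by
        rwa [Ne, content_eq_zero_iff]
      apply this
      simpa using h
    · exact h
  have hprim := p.isPrimitive_primPart
  have hex : ∃ i, ¬ (ℓ : ℤ) ∣ p.primPart.coeff i := by
    by_contra hcon
    have hall : ∀ i, (ℓ : ℤ) ∣ p.primPart.coeff i := by
      intro i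
      by_contra hi
      exact hcon ⟨i, hi⟩
    have := hprim (ℓ : ℤ) ((C_dvd_iff_dvd_coeff _ _).mpr hall)
    exact (Nat.prime_iff_prime_int.mp hℓ).not_isUnit this
  obtain ⟨i, hi⟩ := hex
  refine exists_integral_mul_aux A hx _ (p.primPart.map (algebraMap ℤ (integralClosure ℤ L)))
    le_rfl ?_ ⟨i, ?_⟩
  · rw [aeval_map_algebraMap]
    exact hq
  · rw [coeff_map]
    have : ((algebraMap ℤ (integralClosure ℤ L) (p.primPart.coeff i) : integralClosure ℤ L) : L)
        = ((p.primPart.coeff i : ℤ) : L) := by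
      simp
    rw [this]
    exact intCast_not_mem_nonunits A hℓ hA hi

section

variable [Algebra ℚ L] [Algebra.IsAlgebraic ℚ L]

theorem map_mem_of_integers (A : ValuationSubring L) {ℓ : ℕ} (hℓ : ℓ.Prime)
    (hA : (ℓ : L) ∈ A.nonunits) (τ : L ≃ₐ[ℚ] L)
    (hτ : ∀ b : L, IsIntegral ℤ b → (τ b ∈ A.nonunits ↔ b ∈ A.nonunits))
    {x : L} (hx : x ∈ A) : τ x ∈ A := by
  have hxalg : IsAlgebraic ℤ x :=
    (IsFractionRing.isAlgebraic_iff ℤ ℚ L).mpr (Algebra.IsAlgebraic.isAlgebraic x)
  have : CharZero L := algebraRat.charZero L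
  obtain ⟨s, hs, hsm, hsx⟩ := exists_integral_mul A hℓ hA hx hxalg
  have hτs : IsIntegral ℤ (τ s) := hs.map τ
  have hτsx : IsIntegral ℤ (τ (s * x)) := hsx.map τ
  have h1 : A.valuation (τ s) = 1 := by
    have h2 : τ s ∉ A.nonunits := fun h => hsm ((hτ s hs).mp h)
    rw [ValuationSubring.mem_nonunits_iff, not_lt] at h2
    exact le_antisymm
      ((A.valuation_le_one_iff _).mpr (mem_valuationSubring_of_isIntegral A hτs)) h2
  have h3 := (A.valuation_le_one_iff _).mpr (mem_valuationSubring_of_isIntegral A hτsx)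
  rw [map_mul, map_mul, h1, one_mul] at h3
  exact (A.valuation_le_one_iff _).mp h3

/-- If `sigma` acts as the `l`-th power map modulo `A.nonunits` on all algebraic integers, then
`sigma` is a Frobenius element at `l` for the valuation subring `A`. -/
theorem isFrobeniusAt_of_integers (A : ValuationSubring L) {ℓ : ℕ} (hℓ : ℓ.Prime)
    (hA : A.LiesOverPrime ℓ) (σ : L ≃ₐ[ℚ] L)
    (h : ∀ b : L, IsIntegral ℤ b → σ b - b ^ ℓ ∈ A.nonunits) : A.IsFrobeniusAt σ ℓ := by
  have hA' : (ℓ : L) ∈ A.nonunits := hA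
  have hσ1 : ∀ b : L, IsIntegral ℤ b → (σ b ∈ A.nonunits ↔ b ∈ A.nonunits) := by
    intro b hb
    constructor
    · intro hσb
      have : b ^ ℓ = σ b - (σ b - b ^ ℓ) := by ring
      rw [← pow_mem_nonunits_iff A hℓ.ne_zero, this]
      exact A.nonunits.sub_mem hσb (h b hb)
    · intro hbm
      have : σ b = (σ b - b ^ ℓ) + b ^ ℓ := by ring
      rw [this]
      exact A.nonunits.add_mem (h b hb) ((pow_mem_nonunits_iff A hℓ.ne_zero).mpr hbm)
  have hσ2 : ∀ b : L, IsIntegral ℤ b → (σ.symm b ∈ A.nonunits ↔ b ∈ A.nonunits) := by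
    intro b hb
    have := hσ1 (σ.symm b) (hb.map σ.symm)
    rw [AlgEquiv.apply_symm_apply] at this
    exact this.symm
  have hmem : σ ∈ A.decompositionSubgroup ℚ := by
    rw [MulAction.mem_stabilizer_iff]
    ext x
    rw [ValuationSubring.mem_pointwise_smul_iff_inv_smul_mem]
    constructor
    · intro hx
      have := map_mem_of_integers A hℓ hA' σ hσ1 hx
      simpa using this
    · intro hx
      exact map_mem_of_integers A hℓ hA' σ.symm hσ2 hx
  refine ⟨hmem, ?_⟩
  intro xbar
  obtain ⟨x, rfl⟩ := IsLocalRing.residue_surjective xbar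
  rw [← IsLocalRing.ResidueField.residue_smul, ← map_pow]
  rw [← sub_eq_zero, ← map_sub, IsLocalRing.residue_eq_zero_iff]
  rw [← ValuationSubring.coe_mem_nonunits_iff]
  have hcoe : (((⟨σ, hmem⟩ : A.decompositionSubgroup ℚ) • x - x ^ ℓ : A) : L) =
      σ (x : L) - (x : L) ^ ℓ := by
    rfl
  rw [hcoe]
  have hxalg : IsAlgebraic ℤ (x : L) :=
    (IsFractionRing.isAlgebraic_iff ℤ ℚ L).mpr (Algebra.IsAlgebraic.isAlgebraic (x : L))
  have : CharZero L := algebraRat.charZero L
  obtain ⟨s, hs, hsm, hsx⟩ := exists_integral_mul A hℓ hA' x.2 hxalg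
  have hτs : IsIntegral ℤ (σ s) := hs.map σ
  have h1 : A.valuation (σ s) = 1 := by
    have h2 : σ s ∉ A.nonunits := fun h => hsm ((hσ1 s hs).mp h)
    rw [ValuationSubring.mem_nonunits_iff, not_lt] at h2
    exact le_antisymm
      ((A.valuation_le_one_iff _).mpr (mem_valuationSubring_of_isIntegral A hτs)) h2
  have hkey : σ s * (σ (x : L) - (x : L) ^ ℓ) =
      (σ (s * x) - (s * x) ^ ℓ) - (σ s - s ^ ℓ) * (x : L) ^ ℓ := by
    rw [map_mul]; ring
  have h4 : σ s * (σ (x : L) - (x : L) ^ ℓ) ∈ A.nonunits := by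
    rw [hkey]
    refine A.nonunits.sub_mem (h _ hsx) ?_
    exact mul_mem_nonunits_of_mem A (h s hs) (pow_mem x.2 ℓ)
  rw [ValuationSubring.mem_nonunits_iff, map_mul, h1, one_mul] at h4
  exact A.mem_nonunits_iff.mpr h4

end

end Fermat.Agent.Lib
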