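import Fermat.Agent.Lib.FrobeniusExists

/-!
Frobenius elements exist at EVERY valuation subring lying over a prime `l`, in any Galois
extension of the rationals (generalisation of `Fermat.Agent.Lib.exists_isFrobeniusAt`, where the
valuation subring is chosen).
-/

set_option autoImplicit false
universe u
open scoped Pointwise

namespace Fermat.Agent.Lib

section

variable {L : Type u} [Field L] [Algebra ℚ L]

/-- For any valuation subring `A` over `l`, some automorphism acts as the `l`-th power map on all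
algebraic integers modulo the maximal ideal of `A`. -/
theorem exists_frob_on_integers_at [IsGalois ℚ L] {ℓ : ℕ} (hℓ : ℓ.Prime)
    (A : ValuationSubring L) (hA : A.LiesOverPrime ℓ) :
    ∃ σ : L ≃ₐ[ℚ] L, ∀ b : L, IsIntegral ℤ b → σ b - b ^ ℓ ∈ A.nonunits := by
  have : CharZero L := algebraRat.charZero L
  let _ := galActionIntegers (L := L)
  have := galActionIntegers_smulComm (L := L)
  have := galActionIntegers_isInvariant (L := L)
  let _ : TopologicalSpace (integralClosure ℤ L) := ⊥
  have : DiscreteTopology (integralClosure ℤ L) := ⟨rfl⟩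
  have : ContinuousSMul (L ≃ₐ[ℚ] L) (integralClosure ℤ L) := by
    rw [continuousSMul_iff_stabilizer_isOpen]
    intro b
    convert stabilizer_isOpen_of_isIntegral (K := ℚ) (L := L) (b : L) using 1
    ext σ
    simp only [SetLike.mem_coe, MulAction.mem_stabilizer_iff]
    constructor
    · intro h
      exact congrArg Subtype.val h
    · intro h
      exact Subtype.ext h
  let Q := primeOfValuationSubring A
  have : Q.IsPrime := primeOfValuationSubring_isPrime A
  let P := Q.under ℤ
  have hP : (ℓ : ℤ) ∈ P := by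
    show algebraMap ℤ (integralClosure ℤ L) (ℓ : ℤ) ∈ Q
    rw [mem_primeOfValuationSubring]
    have hA' : (ℓ : L) ∈ A.nonunits := hA
    simpa using hA'
  obtain ⟨e, he⟩ := exists_frobenius_algEquiv hℓ Q P hP
  obtain ⟨σ, hσ⟩ := Ideal.Quotient.stabilizerHom_surjective_of_profinite
    (G := L ≃ₐ[ℚ] L) P Q e
  refine ⟨σ.1, fun b hb => ?_⟩
  have h1 := DFunLike.congr_fun hσ (Ideal.Quotient.mk Q ⟨b, hb⟩)
  rw [he, Ideal.Quotient.stabilizerHom_apply, ← map_pow, Ideal.Quotient.eq] at h1
  exact h1

/-- Frobenius elements exist at every valuation subring over `l`, for any Galois extension of the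
rationals. -/
theorem exists_isFrobeniusAt_at [IsGalois ℚ L] {ℓ : ℕ} (hℓ : ℓ.Prime)
    (A : ValuationSubring L) (hA : A.LiesOverPrime ℓ) :
    ∃ σ : L ≃ₐ[ℚ] L, A.IsFrobeniusAt σ ℓ ∧
      ∀ b : L, IsIntegral ℤ b → σ b - b ^ ℓ ∈ A.nonunits := by
  obtain ⟨σ, h⟩ := exists_frob_on_integers_at hℓ A hA
  exact ⟨σ, isFrobeniusAt_of_integers A hℓ hA σ h, h⟩

end

/-- Frobenius elements exist at every valuation subring of `AlgebraicClosure ℚ` over `l`. -/
theorem exists_isFrobeniusAt_of_liesOverPrime {ℓ : ℕ} (hℓ : ℓ.Prime)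
    (A : ValuationSubring (AlgebraicClosure ℚ)) (hA : A.LiesOverPrime ℓ) :
    ∃ σ : AlgebraicClosure ℚ ≃ₐ[ℚ] AlgebraicClosure ℚ, A.IsFrobeniusAt σ ℓ ∧
      ∀ b : AlgebraicClosure ℚ, IsIntegral ℤ b → σ b - b ^ ℓ ∈ A.nonunits :=
  haveI := isGalois_algebraicClosure_rat
  exists_isFrobeniusAt_at hℓ A hA

/-- Chevalley: a maximal ideal of a subring of a field is cut out by a valuation subring. -/
theorem exists_valuationSubring_of_isMaximal {L : Type u} [Field L] (R : Subring L)
    (P : Ideal R) [hP : P.IsMaximal] :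
    ∃ A : ValuationSubring L, R ≤ A.toSubring ∧ ∀ r : R, r ∈ P ↔ (r : L) ∈ A.nonunits := by
  obtain ⟨A, hRA, hPA⟩ := Ideal.image_subset_nonunits_valuationSubring P hP.ne_top
  refine ⟨A, hRA, fun r => ⟨fun hr => hPA ⟨r, hr, rfl⟩, fun hr => ?_⟩⟩
  let J : Ideal R :=
    { carrier := {r | (r : L) ∈ A.nonunits}
      add_mem' := fun ha hb => A.nonunits.add_mem ha hb
      zero_mem' := A.nonunits.zero_mem
      smul_mem' := fun c x hx => by
        show ((c * x : R) : L) ∈ A.nonunits
        rw [Subring.coe_mul, mul_comm]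
        exact mul_mem_nonunits_of_mem A hx (hRA c.2) }
  have hPJ : P ≤ J := fun x hx => hPA ⟨x, hx, rfl⟩
  have hJ : J ≠ ⊤ := by
    rw [Ne, Ideal.eq_top_iff_one]
    exact one_not_mem_nonunits A
  have := hP.eq_of_le hJ hPJ
  rw [this]
  exact hr

/-- Every maximal ideal of the ring of all algebraic integers of `L` is the prime attached to a
valuation subring of `L`. -/
theorem exists_primeOfValuationSubring_eq {L : Type u} [Field L]
    (Q : Ideal (integralClosure ℤ L)) [hQ : Q.IsMaximal] :
    ∃ A : ValuationSubring L, primeOfValuationSubring A = Q := by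
  let R : Subring L := (integralClosure ℤ L).toSubring
  let Q' : Ideal R := Q
  have hQ' : Q'.IsMaximal := hQ
  obtain ⟨A, -, hA⟩ := exists_valuationSubring_of_isMaximal R Q'
  refine ⟨A, ?_⟩
  ext b
  rw [mem_primeOfValuationSubring]
  exact (hA b).symm

end Fermat.Agent.Lib
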