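import Mathlib.RingTheory.Invariant.Profinite
import Mathlib.FieldTheory.Galois.Infinite
import Mathlib.FieldTheory.Galois.Profinite
import Mathlib.FieldTheory.KrullTopology
import Mathlib.FieldTheory.IsAlgClosed.AlgebraicClosure
import Mathlib.RingTheory.Ideal.GoingUp
import Mathlib.RingTheory.PrincipalIdealDomain
import Mathlib.RingTheory.Algebraic.Basic
import Mathlib.RingTheory.Valuation.LocalSubring
import Mathlib.Algebra.CharP.Frobenius
import Mathlib.Data.Nat.Prime.Int
import Fermat.Agent.Lib.FrobeniusValuation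

/-!
Existence of Frobenius elements in the absolute Galois group of the rationals.

Main result `Fermat.Agent.Lib.exists_isFrobeniusAt`: for every prime `l` there are a valuation
subring `A` of `AlgebraicClosure ℚ` lying over `l` and a field automorphism `sigma` which is a
Frobenius element at `l` for `A` (in the sense of `ValuationSubring.IsFrobeniusAt`).
-/

set_option autoImplicit false
universe u
open scoped Pointwise

namespace Fermat.Agent.Lib

/-- Chevalley: some valuation subring of a characteristic zero field lies over `l`. -/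
theorem exists_valuationSubring_liesOverPrime {L : Type u} [Field L] [CharZero L] (ℓ : ℕ)
    (hℓ : ℓ.Prime) : ∃ A : ValuationSubring L, A.LiesOverPrime ℓ := by
  let R : Subring L := (Int.castRingHom L).range
  have hℓR : (ℓ : L) ∈ R := ⟨(ℓ : ℤ), by simp⟩
  let I : Ideal R := Ideal.span {⟨(ℓ : L), hℓR⟩}
  have hI : I ≠ ⊤ := by
    intro htop
    rw [Ideal.eq_top_iff_one, Ideal.mem_span_singleton'] at htop
    obtain ⟨⟨r, ⟨n, rfl⟩⟩, hr⟩ := htop
    have h1 : ((n * ℓ : ℤ) : L) = ((1 : ℤ) : L) := by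
      have := congrArg Subtype.val hr
      simpa using this
    have h2 : n * (ℓ : ℤ) = 1 := Int.cast_injective h1
    have h3 : IsUnit (ℓ : ℤ) := IsUnit.of_mul_eq_one n (by rw [mul_comm]; exact h2)
    exact (Nat.prime_iff_prime_int.mp hℓ).not_isUnit h3
  obtain ⟨B, -, hB⟩ := Ideal.image_subset_nonunits_valuationSubring I hI
  refine ⟨B, ?_⟩
  apply hB
  exact ⟨⟨(ℓ : L), hℓR⟩, Ideal.subset_span rfl, rfl⟩

/-- The `l`-th power map is an automorphism of the residue field at a prime over `l` of a ring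
integral over the integers. -/
theorem exists_frobenius_algEquiv {B : Type*} [CommRing B] [Algebra.IsIntegral ℤ B]
    {ℓ : ℕ} (hℓ : ℓ.Prime) (Q : Ideal B) [Q.IsPrime] (P : Ideal ℤ) [Q.LiesOver P]
    (hP : (ℓ : ℤ) ∈ P) :
    ∃ e : (B ⧸ Q) ≃ₐ[ℤ ⧸ P] (B ⧸ Q), ∀ x, e x = x ^ ℓ := by
  have : Fact ℓ.Prime := ⟨hℓ⟩
  have hPprime : P.IsPrime := Ideal.over_def Q P ▸ Ideal.IsPrime.under ℤ Q
  have hPeq : P = Ideal.span {(ℓ : ℤ)} := by
    have hmax : (Ideal.span {(ℓ : ℤ)}).IsMaximal :=
      PrincipalIdealRing.isMaximal_of_irreducible (Nat.prime_iff_prime_int.mp hℓ).irreducible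
    exact (hmax.eq_of_le hPprime.ne_top ((Ideal.span_singleton_le_iff_mem _).mpr hP)).symm
  have hPmax : P.IsMaximal := by
    rw [hPeq]
    exact PrincipalIdealRing.isMaximal_of_irreducible (Nat.prime_iff_prime_int.mp hℓ).irreducible
  have hQmax : Q.IsMaximal :=
    Ideal.isMaximal_of_isIntegral_of_isMaximal_comap Q (by
      have := Ideal.over_def Q P
      rw [Ideal.under_def] at this
      rw [← this]; exact hPmax)
  let _ : Field (ℤ ⧸ P) := Ideal.Quotient.field P
  let _ : Field (B ⧸ Q) := Ideal.Quotient.field Q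
  have hchar : CharP (B ⧸ Q) ℓ := by
    rw [CharP.charP_iff_prime_eq_zero hℓ]
    have h1 : ((ℓ : ℤ) : B) ∈ Q := by
      have : (ℓ : ℤ) ∈ Q.under ℤ := by rw [← Ideal.over_def Q P]; exact hP
      simpa [Ideal.under_def] using this
    have : (Ideal.Quotient.mk Q) ((ℓ : ℤ) : B) = 0 := Ideal.Quotient.eq_zero_iff_mem.mpr h1
    simpa using this
  let f : (B ⧸ Q) →ₐ[ℤ ⧸ P] (B ⧸ Q) :=
    { frobenius (B ⧸ Q) ℓ with
      commutes' := by
        intro r
        obtain ⟨n, rfl⟩ := Ideal.Quotient.mk_surjective r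
        have : algebraMap (ℤ ⧸ P) (B ⧸ Q) (Ideal.Quotient.mk P n) = ((n : ℤ) : B ⧸ Q) := by
          rw [← Ideal.Quotient.algebraMap_eq, ← IsScalarTower.algebraMap_apply]
          simp
        simp only [RingHom.toMonoidHom_eq_coe, OneHom.toFun_eq_coe, MonoidHom.toOneHom_coe,
          MonoidHom.coe_coe]
        rw [this, map_intCast] }
  have : Algebra.IsAlgebraic (ℤ ⧸ P) (B ⧸ Q) := by
    have : Algebra.IsIntegral (ℤ ⧸ P) (B ⧸ Q) := inferInstance
    exact Algebra.IsIntegral.isAlgebraic
  have hbij : Function.Bijective f := Algebra.IsAlgebraic.algHom_bijective f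
  exact ⟨AlgEquiv.ofBijective f hbij, fun x => rfl⟩

section

variable {L : Type u} [Field L] [Algebra ℚ L]

/-- The Galois action on algebraic integers. -/
@[reducible] noncomputable def galActionIntegers :
    MulSemiringAction (L ≃ₐ[ℚ] L) (integralClosure ℤ L) where
  smul σ b := ⟨σ (b : L), b.2.map σ⟩
  one_smul _ := Subtype.ext rfl
  mul_smul _ _ _ := Subtype.ext rfl
  smul_zero σ := Subtype.ext (map_zero σ)
  smul_add σ _ _ := Subtype.ext (map_add σ _ _)
  smul_one σ := Subtype.ext (map_one σ)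
  smul_mul σ _ _ := Subtype.ext (map_mul σ _ _)

theorem galActionIntegers_smulComm :
    letI := galActionIntegers (L := L)
    SMulCommClass (L ≃ₐ[ℚ] L) ℤ (integralClosure ℤ L) := by
  let _ := galActionIntegers (L := L)
  refine ⟨fun σ n b => ?_⟩
  apply Subtype.ext
  show σ ((n • b : integralClosure ℤ L) : L) = ((n • (σ • b) : integralClosure ℤ L) : L)
  have : ((σ • b : integralClosure ℤ L) : L) = σ (b : L) := rfl
  simp [this]

theorem galActionIntegers_isInvariant [IsGalois ℚ L] :
    letI := galActionIntegers (L := L)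
    Algebra.IsInvariant ℤ (integralClosure ℤ L) (L ≃ₐ[ℚ] L) := by
  let _ := galActionIntegers (L := L)
  refine ⟨fun b hb => ?_⟩
  have h1 : (b : L) ∈ Set.range (algebraMap ℚ L) := by
    rw [InfiniteGalois.mem_range_algebraMap_iff_fixed]
    intro f
    have := congrArg Subtype.val (hb f)
    exact this
  obtain ⟨q, hq⟩ := h1
  have h2 : IsIntegral ℤ q := by
    have h3 : IsIntegral ℤ (algebraMap ℚ L q) := hq ▸ b.2
    exact (isIntegral_algebraMap_iff (FaithfulSMul.algebraMap_injective ℚ L)).mp h3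
  obtain ⟨a, ha⟩ := IsIntegrallyClosed.algebraMap_eq_of_integral h2
  refine ⟨a, Subtype.ext ?_⟩
  rw [← hq, ← ha]
  simp

omit [Algebra ℚ L] in
/-- The prime of the ring of algebraic integers cut out by a valuation subring. -/
def primeOfValuationSubring (A : ValuationSubring L) : Ideal (integralClosure ℤ L) where
  carrier := {b | (b : L) ∈ A.nonunits}
  add_mem' ha hb := A.nonunits.add_mem ha hb
  zero_mem' := A.nonunits.zero_mem
  smul_mem' c x hx := by
    show ((c * x : integralClosure ℤ L) : L) ∈ A.nonunits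
    rw [MulMemClass.coe_mul, mul_comm]
    exact mul_mem_nonunits_of_mem A hx (mem_valuationSubring_of_isIntegral A c.2)

omit [Algebra ℚ L] in
theorem mem_primeOfValuationSubring (A : ValuationSubring L) (b : integralClosure ℤ L) :
    b ∈ primeOfValuationSubring A ↔ (b : L) ∈ A.nonunits := Iff.rfl

omit [Algebra ℚ L] in
theorem primeOfValuationSubring_isPrime (A : ValuationSubring L) :
    (primeOfValuationSubring A).IsPrime := by
  refine ⟨?_, ?_⟩
  · rw [Ne, Ideal.eq_top_iff_one, mem_primeOfValuationSubring]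
    exact one_not_mem_nonunits A
  · intro x y hxy
    rw [mem_primeOfValuationSubring, MulMemClass.coe_mul, A.mem_nonunits_iff, map_mul] at hxy
    rw [mem_primeOfValuationSubring, mem_primeOfValuationSubring, A.mem_nonunits_iff,
      A.mem_nonunits_iff]
    by_contra hcon
    rw [not_or, not_lt, not_lt] at hcon
    have hx := (A.valuation_le_one_iff _).mpr (mem_valuationSubring_of_isIntegral A x.2)
    have hy := (A.valuation_le_one_iff _).mpr (mem_valuationSubring_of_isIntegral A y.2)
    rw [le_antisymm hx hcon.1, le_antisymm hy hcon.2, one_mul] at hxy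
    exact lt_irrefl _ hxy

/-- Profinite half: some automorphism acts as the `l`-th power map on all algebraic integers
modulo the maximal ideal of some valuation subring over `l`. -/
theorem exists_frob_on_integers [IsGalois ℚ L] (ℓ : ℕ) (hℓ : ℓ.Prime) :
    ∃ (A : ValuationSubring L) (σ : L ≃ₐ[ℚ] L), A.LiesOverPrime ℓ ∧
      ∀ b : L, IsIntegral ℤ b → σ b - b ^ ℓ ∈ A.nonunits := by
  have : CharZero L := algebraRat.charZero L
  obtain ⟨A, hA⟩ := exists_valuationSubring_liesOverPrime (L := L) ℓ hℓ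
  let _ := galActionIntegers (L := L)
  have := galActionIntegers_smulComm (L := L)
  have := galActionIntegers_isInvariant (L := L)
  let _ : TopologicalSpace (integralClosure ℤ L) := ⊥
  have : DiscreteTopology (integralClosure ℤ L) := ⟨rfl⟩
  have : ContinuousSMul (L ≃ₐ[ℚ] L) (integralClosure ℤ L) := by
    rw [continuousSMul_iff_stabilizer_isOpen]
    intro b
    convert stabilizer_isOpen_of_isIntegral (K := ℚ) (L := L) (b : L) using 1
    ext σ
    simp only [SetLike.mem_coe, MulAction.mem_stabilizer_iff]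
    constructor
    · intro h
      exact congrArg Subtype.val h
    · intro h
      exact Subtype.ext h
  let Q := primeOfValuationSubring A
  have : Q.IsPrime := primeOfValuationSubring_isPrime A
  let P := Q.under ℤ
  have hP : (ℓ : ℤ) ∈ P := by
    show algebraMap ℤ (integralClosure ℤ L) (ℓ : ℤ) ∈ Q
    rw [mem_primeOfValuationSubring]
    have hA' : (ℓ : L) ∈ A.nonunits := hA
    simpa using hA'
  obtain ⟨e, he⟩ := exists_frobenius_algEquiv hℓ Q P hP
  obtain ⟨σ, hσ⟩ := Ideal.Quotient.stabilizerHom_surjective_of_profinite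
    (G := L ≃ₐ[ℚ] L) P Q e
  refine ⟨A, σ.1, hA, fun b hb => ?_⟩
  have h1 := DFunLike.congr_fun hσ (Ideal.Quotient.mk Q ⟨b, hb⟩)
  rw [he, Ideal.Quotient.stabilizerHom_apply, ← map_pow, Ideal.Quotient.eq] at h1
  exact h1

/-- Frobenius elements exist, for any Galois extension of the rationals. -/
theorem exists_isFrobeniusAt_of_isGalois [IsGalois ℚ L] (ℓ : ℕ) (hℓ : ℓ.Prime) :
    ∃ (A : ValuationSubring L) (σ : L ≃ₐ[ℚ] L), A.LiesOverPrime ℓ ∧ A.IsFrobeniusAt σ ℓ := by
  obtain ⟨A, σ, hA, h⟩ := exists_frob_on_integers (L := L) ℓ hℓ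
  exact ⟨A, σ, hA, isFrobeniusAt_of_integers A hℓ hA σ h⟩

end

theorem isGalois_algebraicClosure_rat :
    @IsGalois ℚ _ (AlgebraicClosure ℚ) _ DivisionRing.toRatAlgebra := by
  have h : (DivisionRing.toRatAlgebra : Algebra ℚ (AlgebraicClosure ℚ)) =
      AlgebraicClosure.instAlgebra ℚ := Subsingleton.elim _ _
  rw [h]
  infer_instance

/-- Frobenius elements exist in the absolute Galois group of the rationals. -/
theorem exists_isFrobeniusAt (ℓ : ℕ) (hℓ : ℓ.Prime) :
    ∃ (A : ValuationSubring (AlgebraicClosure ℚ))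
      (σ : AlgebraicClosure ℚ ≃ₐ[ℚ] AlgebraicClosure ℚ),
      A.LiesOverPrime ℓ ∧ A.IsFrobeniusAt σ ℓ :=
  haveI := isGalois_algebraicClosure_rat
  exists_isFrobeniusAt_of_isGalois ℓ hℓ

end Fermat.Agent.Lib
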